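import Fermat.Agent.S20.WProps

/-!
# S20 / chapter E4, part (a): the dual cusp forms of weight `2` are linearly independent.
-/

set_option autoImplicit false

open UpperHalfPlane ModularForm CongruenceSubgroup
open scoped MatrixGroups ModularForm Manifold
open Fermat.Agent.S23

namespace Fermat.Agent.S20

variable {N : ℕ} [NeZero N]

omit [NeZero N] in
/-- Pointwise value of a finite linear combination of cusp forms. -/
private theorem indep_sum_smul_apply {ι : Type*} (S : Finset ι) (b : ι → ℂ)
    (h : ι → CuspForm (Gam N) 2) (w : ℍ) :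
    (∑ i ∈ S, b i • h i) w = ∑ i ∈ S, b i * h i w := by
  classical
  induction S using Finset.induction_on with
  | empty => simp
  | insert a S ha ih => rw [Finset.sum_insert ha, Finset.sum_insert ha, ← ih]; simp

/-- The values of a cusp form at `γ • z` in terms of its conjugates. -/
private theorem indep_apply_smul_eq (F' : CuspForm (Gam N) 2) (γ : SL(2, ℤ)) (z : ℍ) :
    F' (γ • z) = denom γ z ^ (2 : ℤ) * cj F' (perm N γ (i0 N)) z := by
  have h := cj_smul_apply F' γ (i0 N) z
  rw [cj_i0] at h
  exact h

/-- Cusp forms of weight `2` whose conjugates are the columns (with index `i`, `κ i = 10`) of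
`Δ • V⁻¹` are linearly independent. -/
theorem DimAux.linearIndependent_h (κ : Fin (psi N) → ℕ) (f : ∀ i, ModularForm (Gam N) (κ i))
    (hfree : IsFreeBasis κ f) (h : {i : Fin (psi N) // κ i = 10} → CuspForm (Gam N) 2)
    (hh : ∀ (i : {i : Fin (psi N) // κ i = 10}) (j : Fin (psi N)) (z : ℍ),
      cj (h i) j z = Δf z * (Vmat κ f z)⁻¹ j i) :
    LinearIndependent ℂ h := by
  classical
  rw [Fintype.linearIndependent_iff]
  intro b hb
  set z : ℍ := UpperHalfPlane.I with hz
  -- the relation on conjugates
  have h1 : ∀ j : Fin (psi N), ∑ i, (Vmat κ f z)⁻¹ j i.1 * b i = 0 := by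
    intro j
    obtain ⟨γ, rfl⟩ := exists_perm_i0 (N := N) j
    have h2 := congrArg (fun F : CuspForm (Gam N) 2 => F (γ • z)) hb
    simp only [indep_sum_smul_apply] at h2
    have h3 : ∑ i, b i * h i (γ • z) =
        denom γ z ^ (2 : ℤ) * (Δf z * ∑ i, (Vmat κ f z)⁻¹ (perm N γ (i0 N)) i.1 * b i) := by
      rw [Finset.mul_sum, Finset.mul_sum]
      refine Finset.sum_congr rfl fun i _ => ?_
      rw [indep_apply_smul_eq, hh]
      ring
    rw [h3] at h2
    have hd : denom γ z ^ (2 : ℤ) ≠ 0 := zpow_ne_zero _ (denom_ne_zero γ z)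
    have h4 := (mul_eq_zero.mp h2).resolve_left hd
    exact (mul_eq_zero.mp h4).resolve_left (ModularForm.discriminant_ne_zero z)
  -- extend `b` by zero
  let b' : Fin (psi N) → ℂ := fun i => if hi : κ i = 10 then b ⟨i, hi⟩ else 0
  have h5 : Matrix.mulVec (Vmat κ f z)⁻¹ b' = 0 := by
    ext j
    rw [Matrix.mulVec, dotProduct, Pi.zero_apply, ← h1 j]
    rw [← Finset.sum_subset (Finset.subset_univ (Finset.univ.filter fun i => κ i = 10))]
    · rw [Finset.sum_subtype (Finset.univ.filter fun i => κ i = 10) (p := fun i => κ i = 10)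
        (fun x => by simp)]
      refine Finset.sum_congr rfl fun i _ => ?_
      simp [b', i.2]
    · intro i _ hi
      have hi' : ¬ κ i = 10 := by simpa using hi
      simp [b', hi']
  have hdet := det_Vmat_ne_zero κ f hfree z
  have hmul : Vmat κ f z * (Vmat κ f z)⁻¹ = 1 :=
    Matrix.mul_nonsing_inv _ (isUnit_iff_ne_zero.mpr hdet)
  have h6 : b' = 0 := by
    have h7 := congrArg (fun v => Matrix.mulVec (Vmat κ f z) v) h5
    simp only [Matrix.mulVec_mulVec, hmul, Matrix.one_mulVec, Matrix.mulVec_zero] at h7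
    exact h7
  intro i
  have h8 := congrFun h6 i.1
  simpa [b', i.2] using h8

end Fermat.Agent.S20
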