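import Fermat.Agent.S20.WProps

/-!
# S20 / chapter E4, part (b): the dual cusp forms of weight `2` span `S_2(Γ₀(N))`.
-/

set_option autoImplicit false

open UpperHalfPlane ModularForm CongruenceSubgroup
open scoped MatrixGroups ModularForm Manifold
open Fermat.Agent.S23

namespace Fermat.Agent.S20

variable {N : ℕ} [NeZero N]

omit [NeZero N] in
/-- Pointwise value of a finite linear combination of cusp forms. -/
private theorem span_sum_smul_apply {ι : Type*} (S : Finset ι) (b : ι → ℂ)
    (h : ι → CuspForm (Gam N) 2) (w : ℍ) :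
    (∑ i ∈ S, b i • h i) w = ∑ i ∈ S, b i * h i w := by
  classical
  induction S using Finset.induction_on with
  | empty => simp
  | insert a S ha ih => rw [Finset.sum_insert ha, Finset.sum_insert ha, ← ih]; simp

/-- A level-one form of weight (equal to) `0` is constant. -/
private theorem span_levelOne_const {e : ℤ} (he : e = 0) (b : ModularForm 𝒮ℒ e) :
    ∃ c : ℂ, ∀ z : ℍ, b z = c := by
  subst he
  obtain ⟨c, hc⟩ := ModularFormClass.levelOne_weight_zero_const b
  exact ⟨c, fun z => by rw [hc]; rfl⟩

/-- Cusp forms of weight `2` whose conjugates are the columns (with index `i`, `κ i = 10`) of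
`Δ • V⁻¹` span the space of cusp forms of weight `2`. -/
theorem DimAux.span_h (κ : Fin (psi N) → ℕ) (f : ∀ i, ModularForm (Gam N) (κ i))
    (hfree : IsFreeBasis κ f) (h : {i : Fin (psi N) // κ i = 10} → CuspForm (Gam N) 2)
    (hh : ∀ (i : {i : Fin (psi N) // κ i = 10}) (j : Fin (psi N)) (z : ℍ),
      cj (h i) j z = Δf z * (Vmat κ f z)⁻¹ j i) :
    ⊤ ≤ Submodule.span ℂ (Set.range h) := by
  classical
  intro s _
  obtain ⟨-, hle, -⟩ := weights_props κ f hfree
  -- the trace coefficients are constants, zero unless `κ i = 10`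
  have key : ∀ i : Fin (psi N), ∃ c : ℂ, (κ i ≠ 10 → c = 0) ∧
      ∀ z : ℍ, ∑ j, cj s j z * cj (f i) j z = Δf z * c := by
    intro i
    obtain ⟨b, hb⟩ := exists_trace_mul s (f i)
    by_cases hi : κ i = 10
    · obtain ⟨c, hc⟩ := span_levelOne_const (by rw [hi]; norm_num) b
      exact ⟨c, fun h => absurd hi h, fun z => by rw [hb, hc]⟩
    · have hlt : (2 : ℤ) + (κ i : ℤ) - 12 < 0 := by
        have := hle i
        omega
      have h0 := ModularFormClass.levelOne_neg_weight_eq_zero hlt b
      exact ⟨0, fun _ => rfl, fun z => by rw [hb, h0]; simp⟩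
  choose β hβ0 hβ using key
  -- inversion of the matrix of conjugates
  have hinv : ∀ (z : ℍ) (j : Fin (psi N)),
      cj s j z = ∑ i, (Vmat κ f z)⁻¹ j i * (Δf z * β i) := by
    intro z j
    have hdet := det_Vmat_ne_zero κ f hfree z
    have hmul : (Vmat κ f z)⁻¹ * Vmat κ f z = 1 :=
      Matrix.nonsing_inv_mul _ (isUnit_iff_ne_zero.mpr hdet)
    have h1 : Matrix.mulVec (Vmat κ f z) (fun j => cj s j z) = fun i => Δf z * β i := by
      ext i
      rw [Matrix.mulVec, dotProduct, ← hβ i z]
      refine Finset.sum_congr rfl fun j _ => ?_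
      rw [mul_comm]
      rfl
    have h2 := congrArg (fun v => Matrix.mulVec (Vmat κ f z)⁻¹ v) h1
    simp only [Matrix.mulVec_mulVec, hmul, Matrix.one_mulVec] at h2
    have h3 := congrFun h2 j
    rw [h3]
    rfl
  have hs : s = ∑ i : {i : Fin (psi N) // κ i = 10}, β i.1 • h i := by
    apply DFunLike.ext
    intro z
    rw [span_sum_smul_apply]
    have h1 := hinv z (i0 N)
    rw [cj_i0] at h1
    rw [h1]
    rw [← Finset.sum_subset (Finset.subset_univ (Finset.univ.filter fun i => κ i = 10))]
    · rw [Finset.sum_subtype (Finset.univ.filter fun i => κ i = 10) (p := fun i => κ i = 10)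
        (fun x => by simp)]
      refine Finset.sum_congr rfl fun i _ => ?_
      have h2 := hh i (i0 N) z
      rw [cj_i0] at h2
      rw [h2]
      ring
    · intro i _ hi
      have hi' : ¬ κ i = 10 := by simpa using hi
      rw [hβ0 i hi']
      ring
  rw [hs]
  exact Submodule.sum_mem _ fun i _ =>
    Submodule.smul_mem _ _ (Submodule.subset_span (Set.mem_range_self i))

end Fermat.Agent.S20
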